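/-
IHARA track, package (K) [INT-REP/MOD] (helper7), file 1: **Hecke actions on subquotients**.

`𝕋 = heckeAlgebra N 2 S` (`S` containing the primes of `N`), `a : 𝕋 →+* End_𝒪 V`.

* `ihk_hecke_induction` : induction principle for `𝕋` (generators `T_ℓ`, integers, sums, products);
* `ihk_hom_restrict`    : a submodule `P` stable under the `a T_ℓ` carries the restricted action;
* `ihk_hom_quot`        : a quotient `V ⧸ K` by a submodule stable under the `a T_ℓ` carries the induced
                          action;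
* `ihk_commute_of_gen`  : an endomorphism commuting with the `a T_ℓ` commutes with all `a t`.
-/
import Mathlib
import Fermat.Prelude.Def_CuspForm_HeckeAlgebra

set_option autoImplicit false
set_option linter.unusedSectionVars false
set_option linter.unusedVariables false
set_option linter.style.haveILetI false

namespace Fermat.Agent.Ihara

section Induction

variable {N : ℕ} [NeZero N] {S : Set ℕ}

/-- **induction principle for the Hecke algebra away from `S ⊇ primes of N`** -/
theorem ihk_hecke_induction (hNS : ∀ q : ℕ, q.Prime → q ∣ N → q ∈ S)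
    {motive : CuspForm.heckeAlgebra N 2 S → Prop}
    (T : ∀ (ℓ : ℕ) (hℓ : ℓ.Prime) (hℓN : ¬ ℓ ∣ N) (hℓS : ℓ ∉ S),
      motive (CuspForm.heckeAlgebra.T hℓ hℓN hℓS))
    (int : ∀ r : ℤ, motive (r : CuspForm.heckeAlgebra N 2 S))
    (add : ∀ x y, motive x → motive y → motive (x + y))
    (mul : ∀ x y, motive x → motive y → motive (x * y))
    (t : CuspForm.heckeAlgebra N 2 S) : motive t := by
  obtain ⟨x, hx⟩ := t
  induction hx using Algebra.adjoin_induction with
  | mem x hx =>
    rcases hx with ⟨ℓ, hℓ, hℓN, hℓS, rfl⟩ | ⟨q, hqN, hq, hqS, rfl⟩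
    · exact T ℓ hℓ hℓN hℓS
    · exact absurd (hNS q hq hqN) hqS
  | algebraMap r =>
    have e : (⟨algebraMap ℤ _ r, Subalgebra.algebraMap_mem _ r⟩ : CuspForm.heckeAlgebra N 2 S)
        = ((r : ℤ) : CuspForm.heckeAlgebra N 2 S) := by
      apply Subtype.ext
      simp
    rw [e]
    exact int r
  | add x y hx hy ihx ihy =>
    have e : (⟨x + y, Subalgebra.add_mem _ hx hy⟩ : CuspForm.heckeAlgebra N 2 S)
        = ⟨x, hx⟩ + ⟨y, hy⟩ := rfl
    rw [e]
    exact add _ _ ihx ihy
  | mul x y hx hy ihx ihy =>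
    have e : (⟨x * y, Subalgebra.mul_mem _ hx hy⟩ : CuspForm.heckeAlgebra N 2 S)
        = ⟨x, hx⟩ * ⟨y, hy⟩ := rfl
    rw [e]
    exact mul _ _ ihx ihy

end Induction

section Sub

variable {N : ℕ} [NeZero N] {S : Set ℕ} {𝒪 : Type*} [CommRing 𝒪] {V : Type*} [AddCommGroup V]
  [Module 𝒪 V] (a : CuspForm.heckeAlgebra N 2 S →+* Module.End 𝒪 V)

/-- stability under the generators implies stability under the whole Hecke algebra -/
theorem ihk_stable_of_gen (hNS : ∀ q : ℕ, q.Prime → q ∣ N → q ∈ S) (P : Submodule 𝒪 V)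
    (hP : ∀ (ℓ : ℕ) (hℓ : ℓ.Prime) (hℓN : ¬ ℓ ∣ N) (hℓS : ℓ ∉ S), ∀ x ∈ P,
      a (CuspForm.heckeAlgebra.T hℓ hℓN hℓS) x ∈ P)
    (t : CuspForm.heckeAlgebra N 2 S) : ∀ x ∈ P, a t x ∈ P := by
  induction t using ihk_hecke_induction hNS with
  | T ℓ hℓ hℓN hℓS => exact hP ℓ hℓ hℓN hℓS
  | int r =>
    intro x hx
    rw [map_intCast, Module.End.intCast_apply]
    exact zsmul_mem hx r
  | add x y hx hy =>
    intro v hv
    rw [map_add, LinearMap.add_apply]
    exact P.add_mem (hx v hv) (hy v hv)
  | mul x y hx hy =>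
    intro v hv
    rw [map_mul, Module.End.mul_apply]
    exact hx _ (hy v hv)

/-- an endomorphism commuting with the generators commutes with the whole Hecke algebra -/
theorem ihk_commute_of_gen (hNS : ∀ q : ℕ, q.Prime → q ∣ N → q ∈ S) (f : Module.End 𝒪 V)
    (hf : ∀ (ℓ : ℕ) (hℓ : ℓ.Prime) (hℓN : ¬ ℓ ∣ N) (hℓS : ℓ ∉ S),
      Commute f (a (CuspForm.heckeAlgebra.T hℓ hℓN hℓS)))
    (t : CuspForm.heckeAlgebra N 2 S) : Commute f (a t) := by
  induction t using ihk_hecke_induction hNS with
  | T ℓ hℓ hℓN hℓS => exact hf ℓ hℓ hℓN hℓS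
  | int r =>
    rw [map_intCast]
    exact Int.commute_cast f r
  | add x y hx hy =>
    rw [map_add]
    exact hx.add_right hy
  | mul x y hx hy =>
    rw [map_mul]
    exact hx.mul_right hy

/-- **the restricted action** on a stable submodule -/
theorem ihk_hom_restrict (P : Submodule 𝒪 V) (hP : ∀ t, ∀ x ∈ P, a t x ∈ P) :
    ∃ a' : CuspForm.heckeAlgebra N 2 S →+* Module.End 𝒪 ↥P,
      ∀ t (x : ↥P), ((a' t x : ↥P) : V) = a t (x : V) := by
  refine ⟨{ toFun := fun t => (a t).restrict (hP t)
            map_one' := ?_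
            map_mul' := ?_
            map_zero' := ?_
            map_add' := ?_ }, fun t x => rfl⟩
  · refine LinearMap.ext fun x => Subtype.ext ?_
    rw [LinearMap.coe_restrict_apply, map_one]
    rfl
  · intro t t'
    refine LinearMap.ext fun x => Subtype.ext ?_
    rw [LinearMap.coe_restrict_apply, map_mul]
    rfl
  · refine LinearMap.ext fun x => Subtype.ext ?_
    rw [LinearMap.coe_restrict_apply, map_zero]
    rfl
  · intro t t'
    refine LinearMap.ext fun x => Subtype.ext ?_
    rw [LinearMap.coe_restrict_apply, map_add]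
    rfl

/-- **the induced action** on the quotient by a stable submodule -/
theorem ihk_hom_quot (K : Submodule 𝒪 V) (hK : ∀ t, ∀ x ∈ K, a t x ∈ K) :
    ∃ a' : CuspForm.heckeAlgebra N 2 S →+* Module.End 𝒪 (V ⧸ K),
      ∀ t (x : V), a' t (Submodule.Quotient.mk x) = Submodule.Quotient.mk (a t x) := by
  have hle : ∀ t, K ≤ K.comap (a t) := fun t x hx => hK t x hx
  refine ⟨{ toFun := fun t => K.mapQ K (a t) (hle t)
            map_one' := ?_
            map_mul' := ?_
            map_zero' := ?_
            map_add' := ?_ }, fun t x => rfl⟩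
  · refine LinearMap.ext fun y => ?_
    induction y using Submodule.Quotient.induction_on with
    | H x =>
      rw [Submodule.mapQ_apply, map_one]
      rfl
  · intro t t'
    refine LinearMap.ext fun y => ?_
    induction y using Submodule.Quotient.induction_on with
    | H x =>
      rw [Submodule.mapQ_apply, map_mul]
      rfl
  · refine LinearMap.ext fun y => ?_
    induction y using Submodule.Quotient.induction_on with
    | H x =>
      rw [Submodule.mapQ_apply, map_zero]
      rfl
  · intro t t'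
    refine LinearMap.ext fun y => ?_
    induction y using Submodule.Quotient.induction_on with
    | H x =>
      rw [Submodule.mapQ_apply, map_add]
      rfl

/-- **the induced action** on the image of a surjective linear map with stable kernel -/
theorem ihk_hom_surj {X : Type*} [AddCommGroup X] [Module 𝒪 X] (π : V →ₗ[𝒪] X)
    (hπ : Function.Surjective π) (hker : ∀ t x, π x = 0 → π (a t x) = 0) :
    ∃ a' : CuspForm.heckeAlgebra N 2 S →+* Module.End 𝒪 X,
      ∀ t (x : V), a' t (π x) = π (a t x) := by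
  obtain ⟨a'', ha''⟩ := ihk_hom_quot a (LinearMap.ker π) (fun t x hx => by
    rw [LinearMap.mem_ker] at hx ⊢
    exact hker t x hx)
  let e : (V ⧸ LinearMap.ker π) ≃ₗ[𝒪] X := π.quotKerEquivOfSurjective hπ
  have he : ∀ x : V, e (Submodule.Quotient.mk x) = π x := fun x => rfl
  refine ⟨(e.conjRingEquiv : Module.End 𝒪 (V ⧸ LinearMap.ker π) →+* Module.End 𝒪 X).comp a'',
    fun t x => ?_⟩
  show e (a'' t (e.symm (π x))) = π (a t x)
  rw [← he x, LinearEquiv.symm_apply_apply, ha'', he]

/-- **the restricted action** along an injective linear map with stable range -/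
theorem ihk_hom_incl {V' : Type*} [AddCommGroup V'] [Module 𝒪 V'] (ι : V' →ₗ[𝒪] V)
    (hι : Function.Injective ι) (hstab : ∀ t (x : V'), a t (ι x) ∈ LinearMap.range ι) :
    ∃ a' : CuspForm.heckeAlgebra N 2 S →+* Module.End 𝒪 V',
      ∀ t (x : V'), ι (a' t x) = a t (ι x) := by
  obtain ⟨a'', ha''⟩ := ihk_hom_restrict a (LinearMap.range ι) (fun t y hy => by
    obtain ⟨x, rfl⟩ := hy
    exact hstab t x)
  let e : V' ≃ₗ[𝒪] ↥(LinearMap.range ι) := LinearEquiv.ofInjective ι hι
  have he : ∀ x : V', ((e x : ↥(LinearMap.range ι)) : V) = ι x := fun x => rfl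
  refine ⟨(e.symm.conjRingEquiv : Module.End 𝒪 ↥(LinearMap.range ι) →+* Module.End 𝒪 V').comp a'',
    fun t x => ?_⟩
  show ι (e.symm (a'' t (e.symm.symm x))) = a t (ι x)
  rw [← he (e.symm _), LinearEquiv.apply_symm_apply, ha'']
  rfl

end Sub

end Fermat.Agent.Ihara
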