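/-
IHARA track, package (K) [INT-REP/MOD] (helper7), file 3: **residually nilpotent endomorphisms**.

`IhkNil I f` : `f ^ k` maps `M` into `I M` for some `k` (`f` is nilpotent on `M ⧸ I M`).

* `IhkNil.add`, `IhkNil.mul_left`, `IhkNil.mul_right`, `IhkNil.smul` : commuting calculus;
* `ihk_nil_unipotent` : `D ^ (p ^ m) = 1`, `p ∈ I` ⟹ `D - 1` residually nilpotent;
* `ihk_nil_twist`     : `T - c` residually nilpotent, `D ^ (p ^ m) = 1`, `T D = D T` ⟹ `T D - c` residually
                        nilpotent;
* `ihk_nil_quot`      : residual nilpotency passes to quotients;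
* `ihk_nil_of_topnil` : on a complemented submodule `P` of a finite module, an endomorphism which is
                        topologically nilpotent at every vector of `P` is residually nilpotent on `P`.
-/
import Mathlib
import Fermat.Agent.Lib.Ihara.Img.Act

set_option autoImplicit false
set_option linter.unusedSectionVars false
set_option linter.unusedVariables false
set_option linter.style.haveILetI false

namespace Fermat.Agent.Ihara

section Nil

variable {R : Type*} [CommRing R] (I : Ideal R) {M : Type*} [AddCommGroup M] [Module R M]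

/-- `f` is nilpotent on `M ⧸ I M` -/
def IhkNil (f : Module.End R M) : Prop :=
  ∃ k : ℕ, ∀ x : M, (f ^ k) x ∈ (I • ⊤ : Submodule R M)

theorem ihkNil_iff (f : Module.End R M) : IhkNil I f ↔ IsNilpotent (ihiRed I f) := by
  constructor
  · rintro ⟨k, hk⟩
    refine ⟨k, ?_⟩
    rw [← map_pow, ihiRed_eq_zero_iff]
    exact hk
  · rintro ⟨k, hk⟩
    refine ⟨k, ?_⟩
    rw [← map_pow, ihiRed_eq_zero_iff] at hk
    exact hk

variable {I}

theorem IhkNil.add {f g : Module.End R M} (hf : IhkNil I f) (hg : IhkNil I g)
    (h : Commute f g) : IhkNil I (f + g) := by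
  rw [ihkNil_iff] at hf hg ⊢
  rw [map_add]
  exact (h.map (ihiRed I)).isNilpotent_add hf hg

theorem IhkNil.mul_right {f g : Module.End R M} (hf : IhkNil I f) (h : Commute f g) :
    IhkNil I (f * g) := by
  rw [ihkNil_iff] at hf ⊢
  rw [map_mul]
  exact (h.map (ihiRed I)).isNilpotent_mul_right hf

theorem IhkNil.mul_left {f g : Module.End R M} (hf : IhkNil I f) (h : Commute f g) :
    IhkNil I (g * f) := by
  rw [ihkNil_iff] at hf ⊢
  rw [map_mul]
  exact (h.map (ihiRed I)).symm.isNilpotent_mul_left hf

theorem ihkNil_algebraMap_of_mem {c : R} (hc : c ∈ I) :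
    IhkNil I (algebraMap R (Module.End R M) c) := by
  rw [ihkNil_iff, ihiRed_algebraMap_of_mem I c hc]
  exact IsNilpotent.zero

/-- a `p`-power torsion automorphism is residually unipotent -/
theorem ihk_nil_unipotent {p : ℕ} (hp : p.Prime) (hpI : (p : R) ∈ I)
    (D : Module.End R M) (m : ℕ) (hD : D ^ (p ^ m) = 1) : IhkNil I (D - 1) := by
  rw [ihkNil_iff]
  refine ⟨p ^ m, ?_⟩
  have hcomm : Commute (ihiRed I D - 1) 1 := Commute.one_right _
  obtain ⟨r, hr⟩ := hcomm.exists_add_pow_prime_pow_eq hp m
  have hp0 : ((p : ℕ) : Module.End R (M ⧸ (I • ⊤ : Submodule R M))) = 0 := by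
    have h1 : ((p : ℕ) : Module.End R M) = algebraMap R (Module.End R M) (p : R) := by
      rw [map_natCast]
    rw [← map_natCast (ihiRed I), h1]
    exact ihiRed_algebraMap_of_mem I _ hpI
  rw [sub_add_cancel, ← map_pow, hD, map_one, one_pow, hp0, zero_mul, zero_mul, zero_mul,
    add_zero] at hr
  rw [map_sub, map_one]
  exact right_eq_add.mp hr

/-- **twisting by a `p`-power torsion automorphism preserves "scalar plus residually nilpotent"** -/
theorem ihk_nil_twist {p : ℕ} (hp : p.Prime) (hpI : (p : R) ∈ I)
    (T D : Module.End R M) (c : R) (hTD : Commute T D) (m : ℕ) (hD : D ^ (p ^ m) = 1)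
    (hT : IhkNil I (T - algebraMap R (Module.End R M) c)) :
    IhkNil I (T * D - algebraMap R (Module.End R M) c) := by
  have hD1 := ihk_nil_unipotent (I := I) hp hpI D m hD
  have hc : ∀ g : Module.End R M, Commute (algebraMap R (Module.End R M) c) g :=
    fun g => Algebra.commute_algebraMap_left c g
  have e : T * D - algebraMap R (Module.End R M) c =
      (T - algebraMap R (Module.End R M) c) * D +
        algebraMap R (Module.End R M) c * (D - 1) := by
    rw [sub_mul, mul_sub, mul_one]
    abel
  rw [e]
  have h1 : Commute (T - algebraMap R (Module.End R M) c) D :=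
    hTD.sub_left (hc D)
  have h2 : Commute (D - 1) (algebraMap R (Module.End R M) c) :=
    ((hc D).symm).sub_left (Commute.one_left _)
  refine (hT.mul_right h1).add (hD1.mul_left h2) ?_
  have h3 : Commute (T - algebraMap R (Module.End R M) c) (D - 1) :=
    h1.sub_right (Commute.one_right _)
  have h4 : Commute (T - algebraMap R (Module.End R M) c) (algebraMap R (Module.End R M) c) :=
    (hc _).symm
  have hDD : Commute D (D - 1) := (Commute.refl D).sub_right (Commute.one_right _)
  have hDc : Commute D (algebraMap R (Module.End R M) c) := (hc D).symm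
  exact (h4.mul_right h3).mul_left (hDc.mul_right hDD)

end Nil

section Quot

variable {R : Type*} [CommRing R] {I : Ideal R} {M : Type*} [AddCommGroup M] [Module R M]

/-- residual nilpotency passes to quotients -/
theorem ihk_nil_quot (K : Submodule R M) (f : Module.End R M) (f' : Module.End R (M ⧸ K))
    (hff' : ∀ x, f' (Submodule.Quotient.mk x) = Submodule.Quotient.mk (f x))
    (hf : IhkNil I f) : IhkNil I f' := by
  obtain ⟨k, hk⟩ := hf
  refine ⟨k, fun y => ?_⟩
  induction y using Submodule.Quotient.induction_on with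
  | H x =>
    have h1 : ∀ n : ℕ, ∀ x : M, (f' ^ n) (Submodule.Quotient.mk x)
        = Submodule.Quotient.mk ((f ^ n) x) := by
      intro n
      induction n with
      | zero => intro x; rfl
      | succ n ih =>
        intro x
        rw [pow_succ, pow_succ, Module.End.mul_apply, Module.End.mul_apply, hff', ih]
    rw [h1]
    have h2 : Submodule.map K.mkQ (I • ⊤) ≤ I • ⊤ := by
      rw [Submodule.map_smul'']
      exact smul_mono_right _ le_top
    exact h2 (Submodule.mem_map_of_mem (hk x))

/-- residual nilpotency passes to the image of a surjective linear map -/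
theorem ihk_nil_surj {X : Type*} [AddCommGroup X] [Module R X] (π : M →ₗ[R] X)
    (hπ : Function.Surjective π) (f : Module.End R M) (f' : Module.End R X)
    (hff' : ∀ x, f' (π x) = π (f x)) (hf : IhkNil I f) : IhkNil I f' := by
  obtain ⟨k, hk⟩ := hf
  refine ⟨k, fun y => ?_⟩
  obtain ⟨x, rfl⟩ := hπ y
  have h1 : ∀ n : ℕ, ∀ x : M, (f' ^ n) (π x) = π ((f ^ n) x) := by
    intro n
    induction n with
    | zero => intro x; rfl
    | succ n ih =>
      intro x
      rw [pow_succ, pow_succ, Module.End.mul_apply, Module.End.mul_apply, hff', ih]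
  rw [h1]
  have h2 : Submodule.map π (I • ⊤) ≤ I • ⊤ := by
    rw [Submodule.map_smul'']
    exact smul_mono_right _ le_top
  exact h2 (Submodule.mem_map_of_mem (hk x))

end Quot

section TopNil

variable {R : Type*} [CommRing R] [IsNoetherianRing R] (I : Ideal R)
  {V : Type*} [AddCommGroup V] [Module R V] [Module.Finite R V]

/-- **on a complemented submodule `P` of a finite module, an endomorphism which is topologically
nilpotent at every vector of `P` is residually nilpotent on `P`** -/
theorem ihk_nil_of_topnil (P P' : Submodule R V) (hc : IsCompl P P') (f : Module.End R V)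
    (hfP : ∀ x ∈ P, f x ∈ P)
    (htop : ∀ x ∈ P, ∃ k : ℕ, (f ^ k) x ∈ (I • ⊤ : Submodule R V)) :
    IhkNil I (f.restrict hfP) := by
  classical
  -- a uniform exponent on a finite generating family
  obtain ⟨s, hs⟩ : P.FG := IsNoetherian.noetherian P
  have hmono : ∀ (x : V) (k k' : ℕ), k ≤ k' → (f ^ k) x ∈ (I • ⊤ : Submodule R V) →
      (f ^ k') x ∈ (I • ⊤ : Submodule R V) := by
    intro x k k' hkk' h
    obtain ⟨j, rfl⟩ := Nat.exists_eq_add_of_le hkk'
    rw [add_comm, pow_add, Module.End.mul_apply]
    have h2 : Submodule.map (f ^ j) (I • ⊤) ≤ I • ⊤ := by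
      rw [Submodule.map_smul'']
      exact smul_mono_right _ le_top
    exact h2 (Submodule.mem_map_of_mem h)
  have hsP : ∀ x ∈ s, x ∈ P := fun x hx => hs ▸ Submodule.subset_span hx
  choose! κ hκ using htop
  set k := s.sup κ with hk
  have hgen : ∀ x ∈ s, (f ^ k) x ∈ (I • ⊤ : Submodule R V) := fun x hx =>
    hmono x (κ x) k (Finset.le_sup hx) (hκ x (hsP x hx))
  have hall : ∀ x ∈ P, (f ^ k) x ∈ (I • ⊤ : Submodule R V) := by
    intro x hx
    rw [← hs] at hx
    induction hx using Submodule.span_induction with
    | mem x hx => exact hgen x hx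
    | zero => rw [map_zero]; exact Submodule.zero_mem _
    | add x y _ _ hx hy => rw [map_add]; exact Submodule.add_mem _ hx hy
    | smul c x _ hx => rw [map_smul]; exact Submodule.smul_mem _ _ hx
  -- project to `P`
  let q : V →ₗ[R] ↥P := P.projectionOnto P' hc
  have hq : ∀ x : ↥P, q (x : V) = x := fun x => Submodule.projectionOnto_apply_left hc x
  have hpow : ∀ (n : ℕ) (x : ↥P), (((f.restrict hfP) ^ n) x : V) = (f ^ n) (x : V) := by
    intro n
    induction n with
    | zero => intro x; rfl
    | succ n ih =>
      intro x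
      rw [pow_succ, pow_succ, Module.End.mul_apply, Module.End.mul_apply, ih,
        LinearMap.coe_restrict_apply]
  refine ⟨k, fun x => ?_⟩
  have h1 : ((f.restrict hfP) ^ k) x = q ((f ^ k) (x : V)) := by
    rw [← hpow, hq]
  rw [h1]
  have h2 : Submodule.map q (I • ⊤) ≤ I • ⊤ := by
    rw [Submodule.map_smul'']
    exact smul_mono_right _ le_top
  exact h2 (Submodule.mem_map_of_mem (hall _ x.2))

end TopNil

end Fermat.Agent.Ihara
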