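/-
IHARA track, package (K) [INT-REP/MOD] (helper7), file 2: **the residual eigensystem of a Hecke module
whose Hecke operators are residually scalar-plus-nilpotent**.

`ihk_exists_theta` : `M ≠ 0` finite over `𝒪`, `a : 𝕋 →+* End_𝒪 M`, and for every generator `T_ℓ` a scalar
`c ℓ` with `(a T_ℓ - c ℓ)^k M ⊆ 𝔪 M`.  Then there is a ring homomorphism `θ : 𝕋 →+* k` with
`θ T_ℓ = residue (c ℓ)`, and `M` is its own `θ`-part (`ihdPart 𝒪 a θ = ⊤`).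
-/
import Mathlib
import Fermat.Agent.Lib.Ihara.Img.Act

set_option autoImplicit false
set_option linter.unusedSectionVars false
set_option linter.unusedVariables false
set_option linter.style.haveILetI false

open IsLocalRing
open scoped TensorProduct

namespace Fermat.Agent.Ihara

section Theta

variable (𝒪 : Type) [CommRing 𝒪] [IsDomain 𝒪] [IsDiscreteValuationRing 𝒪]
  [IsAdicComplete (maximalIdeal 𝒪) 𝒪]
  {N : ℕ} [NeZero N] {S : Set ℕ}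
  {M : Type*} [AddCommGroup M] [Module 𝒪 M]
  (a : CuspForm.heckeAlgebra N 2 S →+* Module.End 𝒪 M)

/-- **the residual eigensystem of a residually scalar-plus-nilpotent Hecke module** -/
theorem ihk_exists_theta [Module.Finite 𝒪 M] [Nontrivial M]
    (hNS : ∀ q : ℕ, q.Prime → q ∣ N → q ∈ S) (c : ℕ → 𝒪)
    (hnil : ∀ (ℓ : ℕ) (hℓ : ℓ.Prime) (hℓN : ¬ ℓ ∣ N) (hℓS : ℓ ∉ S), ∃ k : ℕ, ∀ x : M,
      ((a (CuspForm.heckeAlgebra.T hℓ hℓN hℓS) - algebraMap 𝒪 (Module.End 𝒪 M) (c ℓ)) ^ k) x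
        ∈ maximalIdeal 𝒪 • (⊤ : Submodule 𝒪 M)) :
    ∃ θ : CuspForm.heckeAlgebra N 2 S →+* ResidueField 𝒪,
      (∀ (ℓ : ℕ) (hℓ : ℓ.Prime) (hℓN : ¬ ℓ ∣ N) (hℓS : ℓ ∉ S),
        θ (CuspForm.heckeAlgebra.T hℓ hℓN hℓS) = residue 𝒪 (c ℓ)) ∧
      ihdPart 𝒪 a θ = ⊤ := by
  classical
  set φ : IhdB 𝒪 N S →+* Module.End 𝒪 (M ⧸ (maximalIdeal 𝒪 • ⊤ : Submodule 𝒪 M)) :=
    (ihiRed (maximalIdeal 𝒪)).comp (ihdAct 𝒪 a : IhdB 𝒪 N S →+* Module.End 𝒪 M) with hφ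
  have hφ_apply : ∀ b, φ b = ihiRed (maximalIdeal 𝒪) (ihdAct 𝒪 a b) := fun b => rfl
  set J : Ideal (IhdB 𝒪 N S) := (RingHom.ker φ).radical with hJ
  -- every element is a scalar modulo `J`
  let P : IhdB 𝒪 N S → Prop := fun b => ∃ c : 𝒪, b - algebraMap 𝒪 (IhdB 𝒪 N S) c ∈ J
  have P_alg : ∀ c : 𝒪, P (algebraMap 𝒪 (IhdB 𝒪 N S) c) := by
    intro c
    refine ⟨c, ?_⟩
    rw [sub_self]
    exact J.zero_mem
  have P_add : ∀ b b', P b → P b' → P (b + b') := by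
    rintro b b' ⟨c, hm⟩ ⟨c', hm'⟩
    refine ⟨c + c', ?_⟩
    have : b + b' - algebraMap 𝒪 (IhdB 𝒪 N S) (c + c') =
        (b - algebraMap 𝒪 (IhdB 𝒪 N S) c) + (b' - algebraMap 𝒪 (IhdB 𝒪 N S) c') := by
      rw [map_add]
      ring
    rw [this]
    exact J.add_mem hm hm'
  have P_mul : ∀ b b', P b → P b' → P (b * b') := by
    rintro b b' ⟨c, hm⟩ ⟨c', hm'⟩
    refine ⟨c * c', ?_⟩
    have : b * b' - algebraMap 𝒪 (IhdB 𝒪 N S) (c * c') =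
        (b - algebraMap 𝒪 (IhdB 𝒪 N S) c) * b' +
          algebraMap 𝒪 (IhdB 𝒪 N S) c * (b' - algebraMap 𝒪 (IhdB 𝒪 N S) c') := by
      rw [map_mul]
      ring
    rw [this]
    exact J.add_mem (J.mul_mem_right _ hm) (J.mul_mem_left _ hm')
  have hgenJ : ∀ (ℓ : ℕ) (hℓ : ℓ.Prime) (hℓN : ¬ ℓ ∣ N) (hℓS : ℓ ∉ S),
      (1 : 𝒪) ⊗ₜ[ℤ] CuspForm.heckeAlgebra.T hℓ hℓN hℓS - algebraMap 𝒪 (IhdB 𝒪 N S) (c ℓ) ∈ J := by
    intro ℓ hℓ hℓN hℓS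
    obtain ⟨k, hk⟩ := hnil ℓ hℓ hℓN hℓS
    rw [hJ, Ideal.mem_radical_iff]
    refine ⟨k, ?_⟩
    rw [RingHom.mem_ker, hφ_apply, ihiRed_eq_zero_iff]
    intro x
    have h1 : ihdAct 𝒪 a (((1 : 𝒪) ⊗ₜ[ℤ] CuspForm.heckeAlgebra.T hℓ hℓN hℓS -
        algebraMap 𝒪 (IhdB 𝒪 N S) (c ℓ)) ^ k) =
        (a (CuspForm.heckeAlgebra.T hℓ hℓN hℓS) - algebraMap 𝒪 (Module.End 𝒪 M) (c ℓ)) ^ k := by
      rw [map_pow, map_sub, ihdAct_tmul, one_smul, AlgHom.commutes]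
    rw [h1]
    exact hk x
  have P_incl : ∀ t : CuspForm.heckeAlgebra N 2 S, P ((1 : 𝒪) ⊗ₜ[ℤ] t) := by
    rintro ⟨x, hx⟩
    induction hx using Algebra.adjoin_induction with
    | mem x hx =>
      rcases hx with ⟨ℓ, hℓ, hℓN, hℓS, rfl⟩ | ⟨q, hqN, hq, hqS, rfl⟩
      · exact ⟨c ℓ, hgenJ ℓ hℓ hℓN hℓS⟩
      · exact absurd (hNS q hq hqN) hqS
    | algebraMap r =>
      have e : (⟨algebraMap ℤ _ r, Subalgebra.algebraMap_mem _ r⟩ : CuspForm.heckeAlgebra N 2 S)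
          = ((r : ℤ) : CuspForm.heckeAlgebra N 2 S) := by
        apply Subtype.ext
        simp
      have e2 : (1 : 𝒪) ⊗ₜ[ℤ] ((r : ℤ) : CuspForm.heckeAlgebra N 2 S) =
          algebraMap 𝒪 (IhdB 𝒪 N S) ((r : ℤ) : 𝒪) := by
        rw [Algebra.TensorProduct.algebraMap_apply, Algebra.algebraMap_self_apply]
        calc (1 : 𝒪) ⊗ₜ[ℤ] ((r : ℤ) : CuspForm.heckeAlgebra N 2 S)
            = (1 : 𝒪) ⊗ₜ[ℤ] (r • (1 : CuspForm.heckeAlgebra N 2 S)) := by rw [zsmul_one]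
          _ = (r • (1 : 𝒪)) ⊗ₜ[ℤ] (1 : CuspForm.heckeAlgebra N 2 S) := by
              rw [TensorProduct.tmul_smul, TensorProduct.smul_tmul']
          _ = ((r : ℤ) : 𝒪) ⊗ₜ[ℤ] (1 : CuspForm.heckeAlgebra N 2 S) := by rw [zsmul_one]
      rw [e, e2]
      exact P_alg _
    | add x y hx hy ihx ihy =>
      have e : (⟨x + y, Subalgebra.add_mem _ hx hy⟩ : CuspForm.heckeAlgebra N 2 S)
          = ⟨x, hx⟩ + ⟨y, hy⟩ := rfl
      rw [e, TensorProduct.tmul_add]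
      exact P_add _ _ ihx ihy
    | mul x y hx hy ihx ihy =>
      have e : (⟨x * y, Subalgebra.mul_mem _ hx hy⟩ : CuspForm.heckeAlgebra N 2 S)
          = ⟨x, hx⟩ * ⟨y, hy⟩ := rfl
      have e2 : (1 : 𝒪) ⊗ₜ[ℤ] ((⟨x, hx⟩ : CuspForm.heckeAlgebra N 2 S) * ⟨y, hy⟩) =
          ((1 : 𝒪) ⊗ₜ[ℤ] (⟨x, hx⟩ : CuspForm.heckeAlgebra N 2 S)) *
            ((1 : 𝒪) ⊗ₜ[ℤ] (⟨y, hy⟩ : CuspForm.heckeAlgebra N 2 S)) := by
        rw [Algebra.TensorProduct.tmul_mul_tmul, one_mul]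
      rw [e, e2]
      exact P_mul _ _ ihx ihy
  have P_all : ∀ b : IhdB 𝒪 N S, P b := by
    intro b
    induction b using TensorProduct.induction_on with
    | zero =>
      have := P_alg 0
      rwa [map_zero] at this
    | tmul c t =>
      have e : c ⊗ₜ[ℤ] t = algebraMap 𝒪 (IhdB 𝒪 N S) c * ((1 : 𝒪) ⊗ₜ[ℤ] t) := by
        rw [Algebra.TensorProduct.algebraMap_apply, Algebra.algebraMap_self_apply,
          Algebra.TensorProduct.tmul_mul_tmul, mul_one, one_mul]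
      rw [e]
      exact P_mul _ _ (P_alg c) (P_incl t)
    | add x y hx hy => exact P_add _ _ hx hy
  -- `J` is a proper ideal
  have hJtop : J ≠ ⊤ := by
    intro htop
    have h1 : (1 : IhdB 𝒪 N S) ∈ J := by rw [htop]; trivial
    rw [hJ, Ideal.mem_radical_iff] at h1
    obtain ⟨k, hk⟩ := h1
    rw [one_pow, RingHom.mem_ker, hφ_apply, map_one, ihiRed_eq_zero_iff] at hk
    have htop' : (⊤ : Submodule 𝒪 M) ≤ maximalIdeal 𝒪 • (⊤ : Submodule 𝒪 M) := by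
      intro x _
      exact hk x
    have hbot : (⊤ : Submodule 𝒪 M) = ⊥ :=
      Submodule.eq_bot_of_le_smul_of_le_jacobson_bot (maximalIdeal 𝒪) _ Module.Finite.fg_top htop'
        (IsLocalRing.jacobson_eq_maximalIdeal ⊥ bot_ne_top).ge
    obtain ⟨x, hx⟩ := exists_ne (0 : M)
    apply hx
    have : x ∈ (⊤ : Submodule 𝒪 M) := trivial
    rw [hbot] at this
    exact (Submodule.mem_bot 𝒪).mp this
  have hmJ : ∀ c ∈ maximalIdeal 𝒪, algebraMap 𝒪 (IhdB 𝒪 N S) c ∈ J := by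
    intro c hc
    apply Ideal.le_radical
    rw [RingHom.mem_ker, hφ_apply, AlgHom.commutes]
    exact ihiRed_algebraMap_of_mem _ c hc
  -- the structure map onto `B ⧸ J`
  set g : 𝒪 →+* IhdB 𝒪 N S ⧸ J := (Ideal.Quotient.mk J).comp (algebraMap 𝒪 (IhdB 𝒪 N S)) with hg
  have hgsurj : Function.Surjective g := by
    intro y
    obtain ⟨b, rfl⟩ := Ideal.Quotient.mk_surjective y
    obtain ⟨c, hc⟩ := P_all b
    refine ⟨c, ?_⟩
    rw [hg, RingHom.comp_apply]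
    exact (Ideal.Quotient.eq.mpr hc).symm
  have hker : RingHom.ker g = maximalIdeal 𝒪 := by
    apply le_antisymm
    · intro c hc
      rw [RingHom.mem_ker, hg, RingHom.comp_apply, Ideal.Quotient.eq_zero_iff_mem] at hc
      by_contra hcm
      have hu : IsUnit c := by
        by_contra hnu
        exact hcm ((mem_maximalIdeal c).mpr hnu)
      exact hJtop (Ideal.eq_top_of_isUnit_mem _ hc (hu.map (algebraMap 𝒪 (IhdB 𝒪 N S))))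
    · intro c hc
      rw [RingHom.mem_ker, hg, RingHom.comp_apply, Ideal.Quotient.eq_zero_iff_mem]
      exact hmJ c hc
  let e : 𝒪 ⧸ RingHom.ker g ≃+* IhdB 𝒪 N S ⧸ J := RingHom.quotientKerEquivOfSurjective hgsurj
  let e' : 𝒪 ⧸ RingHom.ker g ≃+* ResidueField 𝒪 := Ideal.quotEquivOfEq hker
  let θ' : IhdB 𝒪 N S →+* ResidueField 𝒪 :=
    ((e' : 𝒪 ⧸ RingHom.ker g →+* ResidueField 𝒪).comp
      (e.symm : IhdB 𝒪 N S ⧸ J →+* 𝒪 ⧸ RingHom.ker g)).comp (Ideal.Quotient.mk J)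
  have hθ'alg : ∀ c : 𝒪, θ' (algebraMap 𝒪 (IhdB 𝒪 N S) c) = residue 𝒪 c := by
    intro c
    have h1 : e (Ideal.Quotient.mk (RingHom.ker g) c) =
        Ideal.Quotient.mk J (algebraMap 𝒪 (IhdB 𝒪 N S) c) := rfl
    show e' (e.symm (Ideal.Quotient.mk J (algebraMap 𝒪 (IhdB 𝒪 N S) c))) = residue 𝒪 c
    rw [← h1, RingEquiv.symm_apply_apply]
    rfl
  have hθ'J : ∀ b ∈ J, θ' b = 0 := by
    intro b hb
    show e' (e.symm (Ideal.Quotient.mk J b)) = 0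
    rw [Ideal.Quotient.eq_zero_iff_mem.mpr hb, map_zero, map_zero]
  let θ : CuspForm.heckeAlgebra N 2 S →+* ResidueField 𝒪 :=
    θ'.comp (Algebra.TensorProduct.includeRight :
      CuspForm.heckeAlgebra N 2 S →ₐ[ℤ] IhdB 𝒪 N S).toRingHom
  have hθT : ∀ (ℓ : ℕ) (hℓ : ℓ.Prime) (hℓN : ¬ ℓ ∣ N) (hℓS : ℓ ∉ S),
      θ (CuspForm.heckeAlgebra.T hℓ hℓN hℓS) = residue 𝒪 (c ℓ) := by
    intro ℓ hℓ hℓN hℓS
    show θ' ((1 : 𝒪) ⊗ₜ[ℤ] CuspForm.heckeAlgebra.T hℓ hℓN hℓS) = residue 𝒪 (c ℓ)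
    have h1 := hθ'J _ (hgenJ ℓ hℓ hℓN hℓS)
    rw [map_sub, hθ'alg, sub_eq_zero] at h1
    exact h1
  refine ⟨θ, hθT, ?_⟩
  exact ihi_part_eq_top 𝒪 a θ hNS (fun ℓ hℓ hℓN hℓS =>
    ⟨c ℓ, (hθT ℓ hℓ hℓN hℓS).symm, hnil ℓ hℓ hℓN hℓS⟩)

end Theta

end Fermat.Agent.Ihara
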