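/-
IHARA track, package (K) [INT-REP/MOD] (helper7), file 4: **the Hecke algebra of level `Γ₀(N')` acts on
every Hecke- and diamond-stable quotient of the `θ₀`-part of `Hom_par(Γ_H(M), 𝒪)`** through the twisted
operators `T♭_ℓ = T_ℓ ⟨z ℓ⟩`, the quotient is its own `θ'`-part for the residual eigensystem
`θ' T_ℓ = θ₀ ℓ mod 𝔪`, and the action commutes with the commutant of the Hecke and diamond operators.

Input: `a₀` = the output of `ihtc_exists_hom` / `ihtr_exists_hom'` (helper7, Tw/ChainHecke), the module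
`IhmPartT` of helper1 (Hm/PartT), `π : IhmPartT → Y` a surjection with stable kernel (e.g. helper1's
`ihmChiPartMk` onto `M^χ`).  Output: `ihk_exists_hom` = the data `a`, `θ'`, `hpart` consumed by
`ihi_exists_rep_twCond`, `ihiAct` (Img/Rep, Img/Act) to produce the [REP] and [MOD] blocks of `IhaHecke`.
-/
import Mathlib
import Fermat.Agent.Lib.Ihara.Glue.Hom
import Fermat.Agent.Lib.Ihara.Glue.Theta
import Fermat.Agent.Lib.Ihara.Glue.Nil
import Fermat.Agent.Lib.Ihara.Hm.PartT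
import Fermat.Agent.Lib.Ihara.Tw.TransferInst

set_option autoImplicit false
set_option linter.unusedSectionVars false
set_option linter.unusedVariables false
set_option linter.style.haveILetI false

open IsLocalRing

namespace Fermat.Agent.Ihara

open Matrix MatrixGroups CongruenceSubgroup ModularCurve ModularCurve.Period
open Fermat.Agent.DS Fermat.Agent.T1 Fermat.Agent.T1G Fermat.Agent.T2

section PartNil

set_option maxSynthPendingDepth 3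

variable (O : Type) [CommRing O] [IsDomain O] [IsDiscreteValuationRing O] [CharZero O]
  [IsAdicComplete (IsLocalRing.maximalIdeal O) O] (M : ℕ) [NeZero M] (hM : 6 ≤ M)
  (H : Subgroup (ZMod M)ˣ) (Ps : Set ℕ) (θ₀ : ℕ → O)

include hM in
/-- `T_ℓ - θ₀ ℓ` is residually nilpotent on the `θ₀`-part (`ℓ ∈ Ps`), submodule version -/
theorem ihk_nil_partOp {ℓ : ℕ} (hℓPs : ℓ ∈ Ps) :
    IhkNil (maximalIdeal O) (ihmPartOp O M hM H Ps θ₀ ℓ -
      algebraMap O (Module.End O ↥(ihmPart O M H Ps θ₀)) (θ₀ ℓ)) := by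
  have hfP : ∀ x ∈ ihmPart O M H Ps θ₀, ihmFam O M H Ps θ₀ ⟨ℓ, hℓPs⟩ x ∈ ihmPart O M H Ps θ₀ := by
    intro x hx
    unfold ihmFam
    rw [LinearMap.sub_apply, Module.algebraMap_end_apply]
    exact Submodule.sub_mem _ (ihmOp_mem_part O M hM H Ps θ₀ ℓ hx) (Submodule.smul_mem _ _ hx)
  have h1 := ihk_nil_of_topnil (maximalIdeal O) (ihmPart O M H Ps θ₀) (ihmCopart O M H Ps θ₀)
    (ihm_isCompl O M H hM Ps θ₀) (ihmFam O M H Ps θ₀ ⟨ℓ, hℓPs⟩) hfP (by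
      intro x hx
      have h2 := (ih4p_mem_nil.mp hx) ⟨ℓ, hℓPs⟩ 1
      rw [pow_one] at h2
      exact h2)
  have e : (ihmFam O M H Ps θ₀ ⟨ℓ, hℓPs⟩).restrict hfP = ihmPartOp O M hM H Ps θ₀ ℓ -
      algebraMap O (Module.End O ↥(ihmPart O M H Ps θ₀)) (θ₀ ℓ) := by
    refine LinearMap.ext fun x => Subtype.ext ?_
    rw [LinearMap.coe_restrict_apply, LinearMap.sub_apply, Module.algebraMap_end_apply]
    unfold ihmFam
    rw [LinearMap.sub_apply, Module.algebraMap_end_apply]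
    rfl
  rw [← e]
  exact h1

include hM in
/-- `T_ℓ - θ₀ ℓ` is residually nilpotent on the `θ₀`-part (`ℓ ∈ Ps`) -/
theorem ihk_nil_partTOp {ℓ : ℕ} (hℓPs : ℓ ∈ Ps) :
    IhkNil (maximalIdeal O) (ihmPartTOp O M hM H Ps θ₀ ℓ -
      algebraMap O (Module.End O (IhmPartT O M H Ps θ₀)) (θ₀ ℓ)) := by
  refine ihk_nil_surj ((ihmPartTEquiv O M H Ps θ₀).symm : ↥(ihmPart O M H Ps θ₀) →ₗ[O] _)
    (ihmPartTEquiv O M H Ps θ₀).symm.surjective _ _ (fun x => ?_)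
    (ihk_nil_partOp O M hM H Ps θ₀ hℓPs)
  rfl

end PartNil

section Main

variable (O : Type) [CommRing O] [IsDomain O] [IsDiscreteValuationRing O] [CharZero O]
  [IsAdicComplete (IsLocalRing.maximalIdeal O) O] (M : ℕ) [NeZero M] (hM : 6 ≤ M)
  (H : Subgroup (ZMod M)ˣ) (Ps : Set ℕ) (θ₀ : ℕ → O)

/-- the twisted operator in terms of helper1's operators -/
theorem ihk_ihtrOp_eq (z : ℕ → (ZMod M)ˣ) {ℓ : ℕ} (hℓ : ℓ.Prime) (hℓM : ¬ ℓ ∣ M) :
    ihtrOp H O O z ℓ = ihmOp O M H ℓ * ihmDia O M H (z ℓ) := by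
  rw [ihtrOp_of H O O z hℓ hℓM, ihmOp_of_not_dvd O M H hℓ hℓM]
  rfl

variable {p : ℕ} (hL : IhfLevel p M H) (hpO : (p : O) ∈ IsLocalRing.maximalIdeal O)

include hL in
/-- the diamond operators have `p`-power order on the `θ₀`-part -/
theorem ihk_partTDia_pow (δ : (ZMod M)ˣ ⧸ H) :
    ∃ m : ℕ, ihmPartTDia O M hM H Ps θ₀ δ ^ (p ^ m) = 1 := by
  obtain ⟨d, rfl⟩ := QuotientGroup.mk_surjective δ
  obtain ⟨m, hm⟩ := hL.pgroup d
  refine ⟨m, ?_⟩
  rw [← map_pow, ← QuotientGroup.mk_pow, (QuotientGroup.eq_one_iff _).mpr hm, map_one]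

include hL hpO in
/-- **the Hecke algebra of level `Γ₀(N')` acts on the stable quotients of the `θ₀`-part** -/
theorem ihk_exists_hom {N' : ℕ} [NeZero N'] (hMN' : M ∣ N') {S : Set ℕ}
    (hS : ∀ l : ℕ, l.Prime → l ∣ N' → l ∈ S) (hPs : ∀ l : ℕ, l.Prime → l ∉ S → l ∈ Ps)
    (z : ℕ → (ZMod M)ˣ)
    (a₀ : CuspForm.heckeAlgebra N' 2 S →+* Module.End O (IhfH O O M H))
    (ha₀ : ∀ (l : ℕ) (hl : l.Prime) (hlN' : ¬ l ∣ N') (hlS : l ∉ S),
      a₀ (CuspForm.heckeAlgebra.T hl hlN' hlS) = ihtrOp H O O z l)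
    {Y : Type*} [AddCommGroup Y] [Module O Y] [Nontrivial Y]
    (π : IhmPartT O M H Ps θ₀ →ₗ[O] Y) (hπ : Function.Surjective π)
    (hπop : ∀ (ℓ : ℕ) (x : IhmPartT O M H Ps θ₀), π x = 0 →
      π (ihmPartTOp O M hM H Ps θ₀ ℓ x) = 0)
    (hπdia : ∀ (δ : (ZMod M)ˣ ⧸ H) (x : IhmPartT O M H Ps θ₀), π x = 0 →
      π (ihmPartTDia O M hM H Ps θ₀ δ x) = 0) :
    ∃ (a : CuspForm.heckeAlgebra N' 2 S →+* Module.End O Y)
      (θ' : CuspForm.heckeAlgebra N' 2 S →+* ResidueField O),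
      (∀ (l : ℕ) (hl : l.Prime) (hlN' : ¬ l ∣ N') (hlS : l ∉ S) (x : IhmPartT O M H Ps θ₀),
        a (CuspForm.heckeAlgebra.T hl hlN' hlS) (π x) =
          π (ihmPartTOp O M hM H Ps θ₀ l
            (ihmPartTDia O M hM H Ps θ₀ ((z l : (ZMod M)ˣ) : (ZMod M)ˣ ⧸ H) x))) ∧
      (∀ (l : ℕ) (hl : l.Prime) (hlN' : ¬ l ∣ N') (hlS : l ∉ S),
        θ' (CuspForm.heckeAlgebra.T hl hlN' hlS) = residue O (θ₀ l)) ∧
      ihdPart O a θ' = ⊤ ∧
      (∀ (f : Module.End O (IhmPartT O M H Ps θ₀)) (f' : Module.End O Y),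
        (∀ x, f' (π x) = π (f x)) →
        (∀ ℓ, Commute f (ihmPartTOp O M hM H Ps θ₀ ℓ)) →
        (∀ δ, Commute f (ihmPartTDia O M hM H Ps θ₀ δ)) →
        ∀ t, Commute f' (a t)) := by
  have hp : p.Prime := hL.prime
  have hlM : ∀ l : ℕ, l.Prime → l ∉ S → ¬ l ∣ M := fun l hl hlS h =>
    hlS (hS l hl (h.trans hMN'))
  haveI : Module.Finite O Y := Module.Finite.of_surjective π hπ
  -- step 1: restriction to the `θ₀`-part
  have hstab₀ : ∀ t, ∀ x ∈ ihmPart O M H Ps θ₀, a₀ t x ∈ ihmPart O M H Ps θ₀ := by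
    refine ihk_stable_of_gen a₀ hS _ ?_
    intro l hl hlN' hlS x hx
    rw [ha₀ l hl hlN' hlS, ihk_ihtrOp_eq O M H z hl (hlM l hl hlS), Module.End.mul_apply]
    exact ihmOp_mem_part O M hM H Ps θ₀ l (ihmDia_mem_part O M hM H Ps θ₀ (z l) hx)
  obtain ⟨a₁, ha₁⟩ := ihk_hom_incl a₀ (ihmPartTIncl O M H Ps θ₀)
    (ihmPartTIncl_injective O M H Ps θ₀) (fun t x => by
      rw [ihmPartTIncl_range]
      exact hstab₀ t _ (ihmPartTIncl_mem O M H Ps θ₀ x))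
  have ha₁T : ∀ (l : ℕ) (hl : l.Prime) (hlN' : ¬ l ∣ N') (hlS : l ∉ S),
      a₁ (CuspForm.heckeAlgebra.T hl hlN' hlS) =
        ihmPartTOp O M hM H Ps θ₀ l *
          ihmPartTDia O M hM H Ps θ₀ ((z l : (ZMod M)ˣ) : (ZMod M)ˣ ⧸ H) := by
    intro l hl hlN' hlS
    refine LinearMap.ext fun x => ihmPartTIncl_injective O M H Ps θ₀ ?_
    rw [ha₁, ha₀ l hl hlN' hlS, ihk_ihtrOp_eq O M H z hl (hlM l hl hlS), Module.End.mul_apply,
      Module.End.mul_apply, ihmPartTIncl_op, ihmPartTIncl_dia]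
  -- step 2: the quotient
  have hstab₁ : ∀ t, ∀ x ∈ LinearMap.ker π, a₁ t x ∈ LinearMap.ker π := by
    refine ihk_stable_of_gen a₁ hS _ ?_
    intro l hl hlN' hlS x hx
    rw [LinearMap.mem_ker] at hx ⊢
    rw [ha₁T l hl hlN' hlS, Module.End.mul_apply]
    exact hπop l _ (hπdia _ x hx)
  obtain ⟨a, ha⟩ := ihk_hom_surj a₁ π hπ (fun t x hx => hstab₁ t x hx)
  have haT : ∀ (l : ℕ) (hl : l.Prime) (hlN' : ¬ l ∣ N') (hlS : l ∉ S)
      (x : IhmPartT O M H Ps θ₀),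
      a (CuspForm.heckeAlgebra.T hl hlN' hlS) (π x) =
        π (ihmPartTOp O M hM H Ps θ₀ l
          (ihmPartTDia O M hM H Ps θ₀ ((z l : (ZMod M)ˣ) : (ZMod M)ˣ ⧸ H) x)) := by
    intro l hl hlN' hlS x
    rw [ha, ha₁T l hl hlN' hlS]
    rfl
  -- step 3: residual nilpotency
  have hnil : ∀ (l : ℕ) (hl : l.Prime) (hlN' : ¬ l ∣ N') (hlS : l ∉ S), ∃ k : ℕ,
      ∀ x : Y,
      ((a (CuspForm.heckeAlgebra.T hl hlN' hlS) - algebraMap O (Module.End O Y) (θ₀ l)) ^ k) x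
        ∈ maximalIdeal O • (⊤ : Submodule O Y) := by
    intro l hl hlN' hlS
    obtain ⟨m, hm⟩ := ihk_partTDia_pow O M hM H Ps θ₀ hL ((z l : (ZMod M)ˣ) : (ZMod M)ˣ ⧸ H)
    have hc : Commute (ihmPartTOp O M hM H Ps θ₀ l)
        (ihmPartTDia O M hM H Ps θ₀ ((z l : (ZMod M)ˣ) : (ZMod M)ˣ ⧸ H)) :=
      ihmPartTOp_commute_dia O M hM H Ps θ₀ l _
    have h1 := ihk_nil_twist (I := maximalIdeal O) hp hpO (ihmPartTOp O M hM H Ps θ₀ l)
      (ihmPartTDia O M hM H Ps θ₀ ((z l : (ZMod M)ˣ) : (ZMod M)ˣ ⧸ H)) (θ₀ l) hc m hm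
      (ihk_nil_partTOp O M hM H Ps θ₀ (hPs l hl hlS))
    exact ihk_nil_surj π hπ _ _ (fun x => by
      rw [LinearMap.sub_apply, haT l hl hlN' hlS, Module.algebraMap_end_apply,
        LinearMap.sub_apply, Module.algebraMap_end_apply, Module.End.mul_apply, map_sub,
        map_smul]) h1
  obtain ⟨θ', hθ', hpart⟩ := ihk_exists_theta O a hS θ₀ hnil
  refine ⟨a, θ', haT, hθ', hpart, ?_⟩
  -- step 4: the commutant
  intro f f' hff' hfop hfdia t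
  refine ihk_commute_of_gen a hS _ ?_ t
  intro l hl hlN' hlS
  refine LinearMap.ext fun y => ?_
  obtain ⟨x, rfl⟩ := hπ y
  rw [Module.End.mul_apply, Module.End.mul_apply, haT, hff', hff', haT]
  congr 1
  have h1 := LinearMap.congr_fun (hfop l).eq
    (ihmPartTDia O M hM H Ps θ₀ ((z l : (ZMod M)ˣ) : (ZMod M)ˣ ⧸ H) x)
  have h2 := LinearMap.congr_fun (hfdia ((z l : (ZMod M)ˣ) : (ZMod M)ˣ ⧸ H)).eq x
  rw [Module.End.mul_apply, Module.End.mul_apply] at h1 h2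
  rw [h1, h2]

end Main

end Fermat.Agent.Ihara
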