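/-
IHARA track, package (K5) (helper7): **the fields [TC]1,2 and [AQ] + [WL] of `IhaHecke` in the literal
shape of the hypotheses `hTC`, `hAQ` of `ihk_hecke`** — helper4's `ihn_chi_TC` / `ihn_chi_AQ_WL`
(Nf/FieldsChi.lean) instantiated with helper9's group data:

`H = ker κ`, `Δ₁ := ihqD1 h`, `G := IhqDelta (fun i => p ^ v_p(qv i - 1))`,
`ι := Δ₂.subtype ∘ (ihqD2Equiv h).symm`, `Rl := ihqRl Tc qv`, `k := ihqK Tc qv p`
(`ihq_tcHyp_sum`, `ihq_exists_Y_gen_sum`, `ihqD1Equiv_symm_gen`, `ihqD2Equiv_symm_gen`),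
for an output `out : IhkOut …` of `ihk_main_chi'`.
-/
import Mathlib
import Fermat.Agent.Lib.Ihara.Glue.Out
import Fermat.Agent.Lib.Ihara.Nf.FieldsChi
import Fermat.Agent.Lib.Ihara.Grp.Inst
import Fermat.Agent.Lib.Ihara.Grp.Compl

set_option autoImplicit false
set_option linter.unusedSectionVars false
set_option linter.unusedVariables false
set_option linter.style.haveILetI false

open scoped TensorProduct
open IsLocalRing Polynomial Fermat.Agent.S53Lib Fermat.Agent.TW ExtCitation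

namespace Fermat.Agent.Ihara

open Matrix MatrixGroups CongruenceSubgroup ModularCurve ModularCurve.Period
open Fermat.Agent.DS Fermat.Agent.T1 Fermat.Agent.T1G Fermat.Agent.T2

local notation "Qbar" => AlgebraicClosure ℚ
local notation "GQ" => (AlgebraicClosure ℚ ≃ₐ[ℚ] AlgebraicClosure ℚ)

section Group

variable (p : ℕ) (M : ℕ) [NeZero M] {r : ℕ} {Tc : Finset Nat.Primes} {qv : Fin r → ℕ}
  (h : IhqData M (ihqPrimes Tc qv) (ihqOrders Tc qv p))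

/-- the embedding `ι : G = IhqDelta … → D = (ℤ/M)ˣ ⧸ H` through `Δ₂` -/
noncomputable def ihkIota :
    IhqDelta (fun i : Fin r => p ^ padicValNat p (qv i - 1)) →* (ZMod M)ˣ ⧸ (ihqKappa h).ker :=
  (ihqD2 h).subtype.comp (ihqD2Equiv h).symm.toMonoidHom

theorem ihkIota_apply (g : IhqDelta (fun i : Fin r => p ^ padicValNat p (qv i - 1))) :
    ihkIota p M h g = (((ihqD2Equiv h).symm g : ↥(ihqD2 h)) : (ZMod M)ˣ ⧸ (ihqKappa h).ker) := rfl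

/-- `D = Δ₁ · ι(G)` -/
theorem ihk_iota_compl (δ : (ZMod M)ˣ ⧸ (ihqKappa h).ker) :
    ∃ δ₁ : ↥(ihqD1 h), ∃ g : IhqDelta (fun i : Fin r => p ^ padicValNat p (qv i - 1)),
      δ = (δ₁ : (ZMod M)ˣ ⧸ (ihqKappa h).ker) * ihkIota p M h g := by
  refine ⟨(ihqD1Equiv h).symm (ihqQuotEquivSum h δ).1, (ihqQuotEquivSum h δ).2, ?_⟩
  rw [ihkIota_apply]
  have h1 : (((ihqD1Equiv h).symm (ihqQuotEquivSum h δ).1 : ↥(ihqD1 h)) :
      (ZMod M)ˣ ⧸ (ihqKappa h).ker) = (ihqQuotEquivSum h).symm ((ihqQuotEquivSum h δ).1, 1) :=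
    ihqFstEquiv_symm_coe (ihqQuotEquivSum h) _
  have h2 : (((ihqD2Equiv h).symm (ihqQuotEquivSum h δ).2 : ↥(ihqD2 h)) :
      (ZMod M)ˣ ⧸ (ihqKappa h).ker) = (ihqQuotEquivSum h).symm (1, (ihqQuotEquivSum h δ).2) :=
    ihqSndEquiv_symm_coe (ihqQuotEquivSum h) _
  rw [h1, h2]
  apply (ihqQuotEquivSum h).injective
  rw [map_mul, MulEquiv.apply_symm_apply, MulEquiv.apply_symm_apply, Prod.mk_mul_mk, mul_one,
    one_mul]

/-- `G = IhqDelta …` is a `p`-group -/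
theorem ihk_delta_pow (g : IhqDelta (fun i : Fin r => p ^ padicValNat p (qv i - 1))) :
    ∃ c : ℕ, g ^ (p ^ c) = 1 := by
  refine ⟨∑ i : Fin r, padicValNat p (qv i - 1), ?_⟩
  rw [← Finset.prod_pow_eq_pow_sum]
  exact ihq_pow_prod g

end Group

section Fields

variable (O : Type) [CommRing O] [IsDomain O] [IsDiscreteValuationRing O] [CharZero O]
  [IsAdicComplete (IsLocalRing.maximalIdeal O) O] [Finite (ResidueField O)]
  (p : ℕ) [Fact p.Prime] (M : ℕ) [NeZero M] (hM : 6 ≤ M)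
  {r : ℕ} {Tc : Finset Nat.Primes} {qv : Fin r → ℕ}
  (h : IhqData M (ihqPrimes Tc qv) (ihqOrders Tc qv p))
  (Ps : Set ℕ) (θ : ℕ → O) (χ : ↥(ihqD1 h) →* O)
  [Module.IsTorsionFree O (IhmChiPart O M hM (ihqKappa h).ker Ps θ (ihqD1 h) χ)]
  {N' : ℕ} [NeZero N'] {S : Finset ℕ}
  (ρbar : ResidualGaloisRep (ResidueField O))
  (b : Module.Basis (Fin 2) (ResidueField O) ρbar.V) (Smin : Finset ℕ)
  (a : CuspForm.heckeAlgebra N' 2 (↑S : Set ℕ) →+*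
    Module.End O (IhmChiPart O M hM (ihqKappa h).ker Ps θ (ihqD1 h) χ))
  (θ' : CuspForm.heckeAlgebra N' 2 (↑S : Set ℕ) →+* ResidueField O)
  (hpart : ihdPart O a θ' = ⊤) [Nontrivial ↥(ihdPart O a θ')]
  (rA : GQ →* Matrix (Fin 2) (Fin 2) (IhdImg O a θ'))
  (hcts : MatCts (IhdImg O a θ') rA)
  (out : IhkOut O M hM (ihqKappa h).ker Ps θ (ihqD1 h) χ (ihtcZ M (ihqRl Tc qv) (ihqK Tc qv p)) p
    ρbar b Smin a θ' hpart rA hcts)
  (hN' : N' = M * (ihqRl Tc qv).prod) (hpS : p ∈ S)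
  (hS : ∀ l : ℕ, l.Prime → l ∣ N' → l ∈ S)

include out in
/-- an output `IhkOut` is a datum `IheDatum` (lead's `E/Main.lean`) -/
theorem ihk_datum_of_out :
    IheDatum O M hM (ihqKappa h).ker Ps θ p (ihqD1 h) χ S
      (ihtcZ M (ihqRl Tc qv) (ihqK Tc qv p)) ρbar b Smin a θ' hpart rA hcts :=
  ⟨out.hecke, out.theta, out.dia_comm, out.map_comm, out.res_surj, out.strict, out.tw,
    out.traceDet, out.trace_frob, out.det⟩

include out hN' hpS hS in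
/-- **the fields [TC]1,2 of `IhaHecke` at `v ∈ Tc`** (`χ` non-trivial on the generator `γ_v` of the
`v`-component of `Δ₁`) -/
theorem ihk_fields_TC (hp2 : p ≠ 2) (hpO : (p : O) ∈ IsLocalRing.maximalIdeal O)
    (hMsq : Squarefree M) (v : ↥Tc) (hvp : ((v : Nat.Primes) : ℕ) ≠ p)
    (hunr : ρbar.IsUnramifiedAt ((v : Nat.Primes) : ℕ)) {φ σ : GQ}
    (hφ : (primeLocalPlace v).IsFrobeniusAt φ ((v : Nat.Primes) : ℕ))
    (hσ : IhgGen p (primeLocalPlace v) σ)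
    (a₁ u : ℕ) (hvau : ((v : Nat.Primes) : ℕ) = 1 + p ^ a₁ * u) (hu : ¬ p ∣ u) (ha : 0 < a₁)
    (μ : Finset Oˣ)
    (hμ : (X ^ (p ^ a₁) - 1 : O[X]) = (X - 1) * ∏ ζ ∈ μ, (X - C (ζ : O)))
    (hχv : χ ((ihqD1Equiv h).symm (ihqGen _ v)) ≠ 1) :
    ∏ ζ ∈ μ, ((rA σ).trace - algebraMap O (IhdImg O a θ') ((ζ : O) + ((ζ⁻¹ : Oˣ) : O))) = 0 ∧
      rA φ * rA σ = rA σ * rA φ := by
  have hp : p.Prime := Fact.out
  have hD := ihk_datum_of_out O p M hM h Ps θ χ ρbar b Smin a θ' hpart rA hcts out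
  have hyp : IhtcHyp M (ihqKappa h).ker (ihqRl Tc qv) (ihqK Tc qv p) :=
    ihq_tcHyp_sum Tc qv hMsq hp hp2 h
  have hγ : ∃ u : (ZMod ((v : Nat.Primes) : ℕ))ˣ, ∃ δ₁ : ↥(ihqD1 h),
      QuotientGroup.mk' (ihqKappa h).ker (ihtcY M (ihqK Tc qv p) ((v : Nat.Primes) : ℕ) u) = δ₁ ∧
        χ δ₁ ≠ 1 := by
    obtain ⟨u', hu'⟩ := ihq_exists_Y_gen_sum Tc qv hMsq hp hp2 h (Sum.inl v)
    exact ⟨u', (ihqD1Equiv h).symm (ihqGen _ v), (ihqD1Equiv_symm_gen h v _ hu').symm, hχv⟩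
  exact ihn_chi_TC O M hM (ihqKappa h).ker Ps θ p (ihqD1 h) χ S ρbar b Smin a θ' hpart rA hcts hD
    hpS hS hp2 hpO hyp hN' (ihkIota p M h) (ihk_iota_compl p M h) (ihk_delta_pow p)
    (v : Nat.Primes).2 (ihq_mem_Rl_inl Tc qv v) hvp hunr (primeLocalPlace v)
    (tw_primeLocalPlace_liesOver (v : Nat.Primes)) hφ hσ a₁ u hvau hu ha μ hμ hγ

include out hN' hpS hS in
/-- **the fields [AQ] and [WL] of `IhaHecke` at the Taylor–Wiles prime `qv i`**, with the whole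
`ihta_AQ` package of the inertia scalar `aq` (for the consumer [SC]) -/
theorem ihk_fields_AQ_WL (hp2 : p ≠ 2) (hpO : (p : O) ∈ IsLocalRing.maximalIdeal O)
    (hMsq : Squarefree M) (i : Fin r) (hqp : qv i ≠ p)
    (hunr : ρbar.IsUnramifiedAt (qv i)) (hTW : IsTWPrime ρbar (qv i))
    (Pl : ValuationSubring Qbar) (hPl : Pl.LiesOverPrime (qv i)) {φ σ : GQ}
    (hφ : Pl.IsFrobeniusAt φ (qv i)) (hσ : IhgGen p Pl σ)
    (c u : ℕ) (hqcu : qv i = 1 + p ^ c * u) (hu : ¬ p ∣ u) (hc0 : 0 < c) :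
    ∃ (aq aq' : IhdImg O a θ') (e : Matrix (Fin 2) (Fin 2) (IhdImg O a θ')),
      (aq * aq' = 1 ∧ aq ^ (p ^ c) = 1 ∧ aq - 1 ∈ maximalIdeal (IhdImg O a θ') ∧
        e * e = e ∧ e.trace = 1 ∧ rA φ * e = e * rA φ ∧ aq = (e * rA σ).trace ∧
        rA σ = aq • e + aq' • (1 - e) ∧ (rA σ).trace = aq + aq' ∧ rA φ * rA σ = rA σ * rA φ) ∧
      ∀ v : IhmChiPart O M hM (ihqKappa h).ker Ps θ (ihqD1 h) χ,
        (∑ j ∈ Finset.range p,
          ihmChiDia O M hM (ihqKappa h).ker Ps θ (ihqD1 h) χ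
            (((ihqD2Equiv h).symm (ihqGen _ i) : ↥(ihqD2 h)) :
              (ZMod M)ˣ ⧸ (ihqKappa h).ker) ^ j :
            Module.End O (IhmChiPart O M hM (ihqKappa h).ker Ps θ (ihqD1 h) χ)) v = 0 →
        ihiAct O a θ' hpart aq v = v → v = 0 := by
  have hp : p.Prime := Fact.out
  have hD := ihk_datum_of_out O p M hM h Ps θ χ ρbar b Smin a θ' hpart rA hcts out
  have hyp : IhtcHyp M (ihqKappa h).ker (ihqRl Tc qv) (ihqK Tc qv p) :=
    ihq_tcHyp_sum Tc qv hMsq hp hp2 h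
  have hγ : ∃ u : (ZMod (qv i))ˣ,
      QuotientGroup.mk' (ihqKappa h).ker (ihtcY M (ihqK Tc qv p) (qv i) u)
        = ihkIota p M h (ihqGen _ i) := by
    obtain ⟨u', hu'⟩ := ihq_exists_Y_gen_sum Tc qv hMsq hp hp2 h (Sum.inr i)
    exact ⟨u', (ihqD2Equiv_symm_gen h i _ hu').symm⟩
  exact ihn_chi_AQ_WL O M hM (ihqKappa h).ker Ps θ p (ihqD1 h) χ S ρbar b Smin a θ' hpart rA hcts
    hD hpS hS hpO hyp hN' (ihkIota p M h) (ihk_iota_compl p M h) (ihk_delta_pow p)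
    (h.prime (Sum.inr i)) (ihq_mem_Rl_inr Tc qv i) hqp hunr hTW Pl hPl hφ hσ c u hqcu hu hc0
    (ihqGen _ i) hγ

end Fields

end Fermat.Agent.Ihara
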