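/-
IHARA track, package (K4) [TUPLE] (helper7), file 2: **the assembly of the tuple `IhaHecke`**
(helper2's `Asm/Level.lean`) from the output `IhkOut` of `ihk_main_chi'`:

* `ihk_hecke_of_out` — abstract in the group data: `A := IhdImg O a θ'`, `M := IhmChiPart …`,
  `ρM := ihiAct O a θ' hpart`, `G` any group with `E : ↥Δ₂ ≃* G`, `x := ihmChiDia ∘ Δ₂.subtype ∘ E.symm`,
  `bM := b'` reindexed along `E`; the fields [TC]1,2, [AQ]+[SC]+[WL], [E′] are hypotheses, the fields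
  [REP], [TC]3,4, [MOD], [GRP] are proved.
* `ihk_hecke` — the concrete form: `H = ker κ`, `Δ₁ = ihqD1 h`, `Δ₂ = ihqD2 h ≃* IhqDelta …` (helper9's
  (A) [GRP]), freeness of rank `d = finrank O (ih4Part O N Ps (ih4Shift O θ bq Q))` over `O[Δ₂]`
  (helper1's (B) `ihm_lvl_free`), the twisted Hecke action `ihtc_exists_hom` (C), and `ihk_main_chi'`
  (K); the fields [TC]1,2, [AQ]+[SC]+[WL], [E′] are hypotheses quantified over the output `IhkOut`.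
-/
import Mathlib
import Fermat.Agent.Lib.Ihara.Glue.Out
import Fermat.Agent.Lib.Ihara.Asm.Level
import Fermat.Agent.Lib.Ihara.Grp.Compl
import Fermat.Agent.Lib.Ihara.Grp.Level
import Fermat.Agent.Lib.Ihara.Grp.Tw
import Fermat.Agent.Lib.Ihara.Hm.Lvl
import Fermat.Agent.Lib.Ihara.Tw.ChainHecke

set_option autoImplicit false
set_option linter.unusedSectionVars false
set_option linter.unusedVariables false
set_option linter.style.haveILetI false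

open IsLocalRing Polynomial Fermat.Agent.S53Lib Fermat.Agent.TW ExtCitation

namespace Fermat.Agent.Ihara

open Matrix MatrixGroups CongruenceSubgroup ModularCurve ModularCurve.Period
open Fermat.Agent.DS Fermat.Agent.T1 Fermat.Agent.T1G Fermat.Agent.T2

local notation "Qbar" => AlgebraicClosure ℚ
local notation "GQ" => (AlgebraicClosure ℚ ≃ₐ[ℚ] AlgebraicClosure ℚ)

section Core

variable (O : Type) [CommRing O] [IsDomain O] [IsDiscreteValuationRing O] [CharZero O]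
  [IsAdicComplete (IsLocalRing.maximalIdeal O) O] [Finite (ResidueField O)]
  (M : ℕ) [NeZero M] (hM : 6 ≤ M)
  (H : Subgroup (ZMod M)ˣ) (Ps : Set ℕ) (θ₀ : ℕ → O)
  (Δ₁ : Subgroup ((ZMod M)ˣ ⧸ H)) (χ : Δ₁ →* O)

/-- **the tuple `IhaHecke` from an output `IhkOut` of `ihk_main_chi'`** (group data abstract) -/
theorem ihk_hecke_of_out (p : ℕ) [Fact p.Prime] {N' : ℕ} [NeZero N'] {S : Finset ℕ}
    (z : ℕ → (ZMod M)ˣ) (ρbar : ResidualGaloisRep (ResidueField O))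
    (b : Module.Basis (Fin 2) (ResidueField O) ρbar.V) (Smin : Finset ℕ)
    (Tc : Finset Nat.Primes) (φv σv : Nat.Primes → GQ) (ϖ : O)
    (μ : ↥Tc → Finset Oˣ) (cs : ↥Tc → Oˣ) (q₀ : ↥Tc) (r d : ℕ) (qv : Fin r → ℕ) (n : ℕ)
    (hSeq : S = Smin ∪ ihgNat Tc ∪ Finset.univ.image qv)
    (a : CuspForm.heckeAlgebra N' 2 (↑S : Set ℕ) →+*
      Module.End O (IhmChiPart O M hM H Ps θ₀ Δ₁ χ))
    (θ' : CuspForm.heckeAlgebra N' 2 (↑S : Set ℕ) →+* ResidueField O)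
    (hpart : ihdPart O a θ' = ⊤) [Nontrivial ↥(ihdPart O a θ')]
    (rA : GQ →* Matrix (Fin 2) (Fin 2) (IhdImg O a θ'))
    (hcts : MatCts (IhdImg O a θ') rA)
    (out : IhkOut O M hM H Ps θ₀ Δ₁ χ z p ρbar b Smin a θ' hpart rA hcts)
    -- the places at `Tc`
    (hTcp : ∀ v : ↥Tc, ((v : Nat.Primes) : ℕ) ≠ p)
    (hφv : ∀ v ∈ Tc, (primeLocalPlace v).IsFrobeniusAt (φv v) (v : ℕ))
    (hσv : ∀ v ∈ Tc, σv v ∈ (primeLocalPlace v).inertiaSubgroupIn ℚ)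
    -- the group `Δ₂ ≃* G`
    (Δ₂ : Subgroup ((ZMod M)ˣ ⧸ H))
    (G : Type) [CommGroup G] [Finite G] (E : ↥Δ₂ ≃* G) (γ : Fin r → G) (c : Fin r → ℕ)
    (hγ : ∀ i, n ≤ c i ∧ 0 < c i ∧ orderOf (γ i) = p ^ c i)
    (hgen : Subgroup.closure (Set.range γ) = ⊤)
    (huniv : ∀ (Y : Type) [CommMonoid Y] (y : Fin r → Y), (∀ i, y i ^ (p ^ c i) = 1) →
      ∃ f : G →* Y, ∀ i, f (γ i) = y i)
    -- freeness over `O[Δ₂]`
    (w : Fin d → IhmChiPart O M hM H Ps θ₀ Δ₁ χ)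
    (b' : Module.Basis (Fin d × Δ₂) O (IhmChiPart O M hM H Ps θ₀ Δ₁ χ))
    (hb' : ∀ (j : Fin d) (g : Δ₂), b' (j, g)
      = ihmChiDia O M hM H Ps θ₀ Δ₁ χ (g : (ZMod M)ˣ ⧸ H) (w j))
    -- [TC] 1, 2
    (hTC : ∀ v : ↥Tc, ∏ ζ ∈ μ v, ((rA (σv v)).trace -
        algebraMap O (IhdImg O a θ') ((ζ : O) + ((ζ⁻¹ : Oˣ) : O))) = 0 ∧
      rA (φv v) * rA (σv v) = rA (σv v) * rA (φv v))
    -- [AQ] + [SC] + [WL]
    (hAQ : ∀ i : Fin r, ∃ aq : IhdImg O a θ', aq ^ (p ^ c i) = 1 ∧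
      (∀ v, ∃ u, ihiAct O a θ' hpart aq v - v
        = ihmChiDia O M hM H Ps θ₀ Δ₁ χ ((E.symm (γ i) : Δ₂) : (ZMod M)ˣ ⧸ H) u - u) ∧
      (∀ v, (∑ k ∈ Finset.range p,
          ihmChiDia O M hM H Ps θ₀ Δ₁ χ ((E.symm (γ i) : Δ₂) : (ZMod M)ˣ ⧸ H) ^ k :
            Module.End O (IhmChiPart O M hM H Ps θ₀ Δ₁ χ)) v = 0 →
        ihiAct O a θ' hpart aq v = v → v = 0))
    -- [E′]
    (hE : ∀ v, ∃ v', ihiAct O a θ' hpart ((rA (φv q₀)).trace -
      algebraMap O (IhdImg O a θ') ((cs q₀ : O) * (1 + (((q₀ : Nat.Primes) : ℕ) : O)))) v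
        = ϖ • v') :
    IhaHecke p ρbar b (fun _ _ _ ρ => ρ.IsFlatAt p) Smin Tc φv σv ϖ μ cs q₀ r d qv n := by
  classical
  subst hSeq
  choose aq haq1 haq2 haq3 using hAQ
  -- the diamond action of `G`
  set x : G →* Module.End O (IhmChiPart O M hM H Ps θ₀ Δ₁ χ) :=
    (ihmChiDia O M hM H Ps θ₀ Δ₁ χ).comp (Δ₂.subtype.comp E.symm.toMonoidHom) with hx
  have hxg : ∀ g : G, x g
      = ihmChiDia O M hM H Ps θ₀ Δ₁ χ ((E.symm g : Δ₂) : (ZMod M)ˣ ⧸ H) := fun g => rfl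
  refine ⟨IhdImg O a θ', inferInstance, inferInstance, inferInstance, inferInstance, inferInstance,
    inferInstance, rA, hcts, IhmChiPart O M hM H Ps θ₀ Δ₁ χ, inferInstance, inferInstance,
    inferInstance, ihiAct O a θ' hpart, G, inferInstance, inferInstance, x, w,
    b'.reindex (Equiv.prodCongr (Equiv.refl (Fin d)) E.toEquiv), γ, c, aq,
    out.res_surj, out.strict, ?_, out.traceDet, fun v => (hTC v).1, fun v => (hTC v).2, ?_, ?_,
    ?_, ?_, hγ, hgen, huniv, haq1, ?_, ?_, hE⟩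
  · -- the type
    exact out.tw
  · -- det at the inertia generators
    intro v
    exact ((out.det _ (v : Nat.Primes).2 (hTcp v) (primeLocalPlace v)
      (tw_primeLocalPlace_liesOver v)).2) _ (hσv v v.2)
  · -- det at the Frobenius lifts
    intro v
    exact ((out.det _ (v : Nat.Primes).2 (hTcp v) (primeLocalPlace v)
      (tw_primeLocalPlace_liesOver v)).1) _ (hφv v v.2)
  · -- commutation
    intro t g
    rw [hxg]
    exact (out.dia_comm _ t).symm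
  · -- the basis
    intro j g
    rw [Module.Basis.reindex_apply, hxg]
    exact hb' j _
  · intro i v
    rw [hxg]
    exact haq2 i v
  · intro i v
    rw [hxg]
    exact haq3 i v

end Core

section Concrete

variable (O : Type) [CommRing O] [IsDomain O] [IsDiscreteValuationRing O] [CharZero O]
  [IsAdicComplete (IsLocalRing.maximalIdeal O) O] [Finite (ResidueField O)]
  (p : ℕ) [Fact p.Prime] (M : ℕ) [NeZero M] (hM : 6 ≤ M)
  {r : ℕ} {Tc : Finset Nat.Primes} {qv : Fin r → ℕ}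
  (h : IhqData M (ihqPrimes Tc qv) (ihqOrders Tc qv p))
  (Ps : Set ℕ) (θ : ℕ → O) (χ : ↥(ihqD1 h) →* O)

/-- **the tuple `IhaHecke` at the Taylor–Wiles set `qv`, level `n`**: `H = ker κ` (helper9),
`M^χ = IhmChiPart` free of rank `d` over `O[Δ₂]` (helper1), Hecke ring `IhdImg O a θ'` and its
representation (`ihk_main_chi'`); the remaining fields are hypotheses on the output `IhkOut`. -/
theorem ihk_hecke (hp5 : 5 ≤ p) (hpO : (p : O) ∈ IsLocalRing.maximalIdeal O)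
    (hMsq : Squarefree M)
    -- the composite twist and the level of the Hecke algebra
    {Rl : List ℕ} {k : ℕ → ℕ} (hyp : IhtcHyp M (ihqKappa h).ker Rl k) (hne : Rl ≠ [])
    {N' : ℕ} [NeZero N'] (hN' : N' = M * Rl.prod)
    (Smin : Finset ℕ) {S : Finset ℕ} (hSeq : S = Smin ∪ ihgNat Tc ∪ Finset.univ.image qv)
    (hS : ∀ l : ℕ, l.Prime → l ∣ N' → l ∈ S) (hPs : ∀ l : ℕ, l.Prime → l ∉ S → l ∈ Ps)
    (hpSmin : p ∈ Smin) (hpN' : ¬ p ∣ N')
    (hSmin : ∀ q ∈ Smin, q.Prime → q ≠ p → q ∣ N' ∧ ¬ q ^ 2 ∣ N')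
    -- the residual representation
    (ρbar : ResidualGaloisRep (ResidueField O)) (habs : ρbar.IsAbsolutelyIrreducible)
    (hfrob : ∀ (ℓ : ℕ), ℓ.Prime → ℓ ∉ S →
      ∀ P : ValuationSubring Qbar, P.LiesOverPrime ℓ → ∀ σ : GQ, P.IsFrobeniusAt σ ℓ →
        LinearMap.charpoly (ρbar.ρ σ) =
          X ^ 2 - C (residue O (θ ℓ)) * X + C ((ℓ : ResidueField O)))
    (b : Module.Basis (Fin 2) (ResidueField O) ρbar.V)
    -- (B) [LVL]
    {ℓ₀ : ℕ} (hℓ₀ : ℓ₀.Prime) (hℓ₀M : ¬ ℓ₀ ∣ M) (hℓ₀Ps : ℓ₀ ∈ Ps)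
    (hθ : IsUnit (θ ℓ₀ - ((ℓ₀ : O) + 1)))
    (N : ℕ) [NeZero N] (Q : List ℕ) (hMQ : M = Q.foldl (· * ·) N) (hnd : Q.Nodup)
    (hQ : ∀ q ∈ Q, q.Prime ∧ ¬ q ∣ N) (hPsQ : ∀ q ∈ Q, q ∈ Ps) (bq : ℕ → O)
    (hθQ : ∀ q ∈ Q, θ q * bq q = ((q : ℕ) : O) ∧ IsUnit (θ q) ∧ IsUnit (θ q - bq q) ∧
      IsUnit (1 - θ q ^ 2))
    (d : ℕ) (hd : Module.finrank O ↥(ih4Part O N Ps (ih4Shift O θ bq Q)) = d) (hd0 : 0 < d)
    -- the level `n`
    (n : ℕ) (hqn : ∀ i, p ^ (n + 1) ∣ qv i - 1)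
    -- the places at `Tc`
    (φv σv : Nat.Primes → GQ)
    (hTcp : ∀ v : ↥Tc, ((v : Nat.Primes) : ℕ) ≠ p)
    (hφv : ∀ v ∈ Tc, (primeLocalPlace v).IsFrobeniusAt (φv v) (v : ℕ))
    (hσv : ∀ v ∈ Tc, σv v ∈ (primeLocalPlace v).inertiaSubgroupIn ℚ)
    (ϖ : O) (μ : ↥Tc → Finset Oˣ) (cs : ↥Tc → Oˣ) (q₀ : ↥Tc)
    -- the remaining fields, for every output of `ihk_main_chi'`
    (hTC : ∀ (a : CuspForm.heckeAlgebra N' 2 (↑S : Set ℕ) →+*
          Module.End O (IhmChiPart O M hM (ihqKappa h).ker Ps θ (ihqD1 h) χ))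
        (θ' : CuspForm.heckeAlgebra N' 2 (↑S : Set ℕ) →+* ResidueField O)
        (hpart : ihdPart O a θ' = ⊤) [Nontrivial ↥(ihdPart O a θ')]
        (rA : GQ →* Matrix (Fin 2) (Fin 2) (IhdImg O a θ')) (hcts : MatCts (IhdImg O a θ') rA),
        IhkOut O M hM (ihqKappa h).ker Ps θ (ihqD1 h) χ (ihtcZ M Rl k) p ρbar b Smin a θ' hpart rA
          hcts →
        ∀ v : ↥Tc, ∏ ζ ∈ μ v, ((rA (σv v)).trace -
            algebraMap O (IhdImg O a θ') ((ζ : O) + ((ζ⁻¹ : Oˣ) : O))) = 0 ∧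
          rA (φv v) * rA (σv v) = rA (σv v) * rA (φv v))
    (hAQ : ∀ (a : CuspForm.heckeAlgebra N' 2 (↑S : Set ℕ) →+*
          Module.End O (IhmChiPart O M hM (ihqKappa h).ker Ps θ (ihqD1 h) χ))
        (θ' : CuspForm.heckeAlgebra N' 2 (↑S : Set ℕ) →+* ResidueField O)
        (hpart : ihdPart O a θ' = ⊤) [Nontrivial ↥(ihdPart O a θ')]
        (rA : GQ →* Matrix (Fin 2) (Fin 2) (IhdImg O a θ')) (hcts : MatCts (IhdImg O a θ') rA),
        IhkOut O M hM (ihqKappa h).ker Ps θ (ihqD1 h) χ (ihtcZ M Rl k) p ρbar b Smin a θ' hpart rA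
          hcts →
        ∀ i : Fin r, ∃ aq : IhdImg O a θ', aq ^ (p ^ padicValNat p (qv i - 1)) = 1 ∧
          (∀ v, ∃ u, ihiAct O a θ' hpart aq v - v
            = ihmChiDia O M hM (ihqKappa h).ker Ps θ (ihqD1 h) χ
                (((ihqD2Equiv h).symm (ihqGen _ i) : ↥(ihqD2 h)) :
                  (ZMod M)ˣ ⧸ (ihqKappa h).ker) u - u) ∧
          (∀ v, (∑ j ∈ Finset.range p,
              ihmChiDia O M hM (ihqKappa h).ker Ps θ (ihqD1 h) χ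
                (((ihqD2Equiv h).symm (ihqGen _ i) : ↥(ihqD2 h)) :
                  (ZMod M)ˣ ⧸ (ihqKappa h).ker) ^ j :
                Module.End O (IhmChiPart O M hM (ihqKappa h).ker Ps θ (ihqD1 h) χ)) v = 0 →
            ihiAct O a θ' hpart aq v = v → v = 0))
    (hE : ∀ (a : CuspForm.heckeAlgebra N' 2 (↑S : Set ℕ) →+*
          Module.End O (IhmChiPart O M hM (ihqKappa h).ker Ps θ (ihqD1 h) χ))
        (θ' : CuspForm.heckeAlgebra N' 2 (↑S : Set ℕ) →+* ResidueField O)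
        (hpart : ihdPart O a θ' = ⊤) [Nontrivial ↥(ihdPart O a θ')]
        (rA : GQ →* Matrix (Fin 2) (Fin 2) (IhdImg O a θ')) (hcts : MatCts (IhdImg O a θ') rA),
        IhkOut O M hM (ihqKappa h).ker Ps θ (ihqD1 h) χ (ihtcZ M Rl k) p ρbar b Smin a θ' hpart rA
          hcts →
        ∀ v, ∃ v', ihiAct O a θ' hpart ((rA (φv q₀)).trace -
          algebraMap O (IhdImg O a θ') ((cs q₀ : O) * (1 + (((q₀ : Nat.Primes) : ℕ) : O)))) v
            = ϖ • v') :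
    IhaHecke p ρbar b (fun _ _ _ ρ => ρ.IsFlatAt p) Smin Tc φv σv ϖ μ cs q₀ r d qv n := by
  classical
  have hp : p.Prime := Fact.out
  subst hd
  -- (A) the level structure
  have hL : IhfLevel p M (ihqKappa h).ker := ihq_level hp hp5 hMsq h (ihqOrders_pow Tc qv)
  haveI hnz : ∀ i : Fin r, NeZero (p ^ padicValNat p (qv i - 1)) := fun i => h.neZero (Sum.inr i)
  -- (B) freeness
  obtain ⟨w, -, -, hχ⟩ := ihm_lvl_free O M hM (ihqKappa h).ker Ps θ hL hpO hℓ₀ hℓ₀M hℓ₀Ps hθ N Q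
    hMQ hnd hQ hPsQ bq hθQ
  obtain ⟨b', hb'⟩ := hχ (ihqD1 h) χ (ihqD2 h) (ihqD_isCompl h)
  haveI : Module.Free O (IhmChiPart O M hM (ihqKappa h).ker Ps θ (ihqD1 h) χ) :=
    Module.Free.of_basis b'
  haveI : Nontrivial (IhmChiPart O M hM (ihqKappa h).ker Ps θ (ihqD1 h) χ) :=
    nontrivial_of_ne _ _ (b'.ne_zero (⟨0, hd0⟩, 1))
  -- (C) the twisted Hecke action
  have hMN' : M ∣ N' := hN' ▸ Dvd.intro _ rfl
  obtain ⟨a₀, ha₀⟩ := ihtc_exists_hom hyp hne hN' O (↑S : Set ℕ)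
    (fun l hl hlN' => by exact_mod_cast hS l hl hlN')
  -- (K)
  obtain ⟨a, θ', hpart, hnt, rA, hcts, out⟩ := ihk_main_chi' O M hM (ihqKappa h).ker Ps θ (ihqD1 h)
    χ hL hpO hMN' hS hPs
    (hSeq ▸ Finset.mem_union_left _ (Finset.mem_union_left _ hpSmin)) hpN' (ihtcZ M Rl k) a₀ ha₀
    ρbar habs hfrob b Smin hSmin
  refine ihk_hecke_of_out O M hM (ihqKappa h).ker Ps θ (ihqD1 h) χ p (ihtcZ M Rl k) ρbar b Smin Tc
    φv σv ϖ μ cs q₀ r _ qv n hSeq a θ' hpart rA hcts out hTcp hφv hσv (ihqD2 h)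
    (IhqDelta (fun i : Fin r => p ^ padicValNat p (qv i - 1))) (ihqD2Equiv h) (ihqGen _)
    (fun i => padicValNat p (qv i - 1)) ?_ (ihq_closure_gen _) (fun Y _ y hy => ihq_univ _ y hy)
    (fun j => ihmChiPartMk O M hM (ihqKappa h).ker Ps θ (ihqD1 h) χ (w j)) b' hb'
    (hTC a θ' hpart rA hcts out) (hAQ a θ' hpart rA hcts out) (hE a θ' hpart rA hcts out)
  intro i
  have h1 : n + 1 ≤ padicValNat p (qv i - 1) :=
    ihq_le_padicValNat hp (h.prime (Sum.inr i)) (hqn i)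
  exact ⟨by omega, by omega, ihq_orderOf_gen _ i⟩

end Concrete

end Fermat.Agent.Ihara
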